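import Fermat.Agent.S15.H226.WpAdd

/-!
# S15 / MOD-B3 (helper226): `℘ z = ℘ w ↔ z ≡ ± w mod Λ`

Mathlib-only (through `WpAdd`).  Consequence of the addition relation.
-/

set_option autoImplicit false

open Filter Topology

noncomputable section

namespace Fermat.Agent.S15.H226

open PeriodPair

theorem eventually_nhdsNE_add_notMem226 (L : PeriodPair) (c z₀ : ℂ) :
    ∀ᶠ u in 𝓝[≠] z₀, u + c ∉ L.lattice := by
  have ht : Tendsto (fun y : ℂ => y + c) (𝓝 z₀) (𝓝 (z₀ + c)) :=
    (continuous_id.add continuous_const).continuousAt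
  have h1 := ht.eventually (L.compl_lattice_sdiff_singleton_mem_nhds (z₀ + c))
  rw [eventually_nhdsWithin_iff]
  filter_upwards [h1] with u hu hne hmem
  exact hu ⟨hmem, fun h' => hne (by simpa using h')⟩

theorem meromorphicOrderAt_shift226 (L : PeriodPair) {c z₀ : ℂ} (h : z₀ + c ∈ L.lattice) :
    meromorphicOrderAt (fun u => ℘[L] (u + c)) z₀ = -2 := by
  have := meromorphicOrderAt_comp_add_const_eq_meromorphicOrderAt
    (f := ℘[L]) (c := c) (x := z₀)
  rw [L.order_weierstrassP _ h] at this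
  exact this

/-- If `℘ z = ℘ w` and `z + w ∉ Λ` then `℘' z = ℘' w`. -/
theorem derivWeierstrassP_eq_of_eq226 (L : PeriodPair) {z w : ℂ} (hz : z ∉ L.lattice)
    (hw : w ∉ L.lattice) (hzw : z + w ∉ L.lattice) (h : ℘[L] z = ℘[L] w) :
    ℘'[L] z = ℘'[L] w := by
  have h0 := addRel226_eq_zero L hw hz hzw
  have h1 := L.derivWeierstrassP_sq z hz
  have h2 := L.derivWeierstrassP_sq w hw
  simp only [addRel226, h] at h0
  rw [h] at h1
  have hsq : (℘'[L] z - ℘'[L] w) ^ 2 = 0 := by
    linear_combination h0 + h1 + h2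
  exact sub_eq_zero.mp ((pow_eq_zero_iff (two_ne_zero)).mp hsq)

/-- **Injectivity of `℘` modulo `± 1` and the lattice.** -/
theorem weierstrassP_eq_iff226 (L : PeriodPair) {z w : ℂ} (hz : z ∉ L.lattice)
    (hw : w ∉ L.lattice) :
    ℘[L] z = ℘[L] w ↔ z - w ∈ L.lattice ∨ z + w ∈ L.lattice := by
  constructor
  swap
  · rintro (h | h)
    · have := L.weierstrassP_add_coe w ⟨z - w, h⟩
      simpa using this
    · exact weierstrassP_eq_of_add_mem226 L h
  intro hx
  by_contra hcon
  rw [not_or] at hcon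
  obtain ⟨hzw', hzw⟩ := hcon
  -- Step 1: `℘' z = ℘' w`
  have hy : ℘'[L] z = ℘'[L] w := derivWeierstrassP_eq_of_eq226 L hz hw hzw hx
  -- Step 2: the product relation on the regular locus
  set S : Set ℂ := (L.lattice : Set ℂ) ∪ ((fun u : ℂ => u + z) ⁻¹' (L.lattice : Set ℂ))
    ∪ ((fun u : ℂ => u + w) ⁻¹' (L.lattice : Set ℂ)) with hS
  have hSclosed : IsClosed S := by
    refine (L.isClosed_lattice.union ?_).union ?_
    · exact L.isClosed_lattice.preimage (by fun_prop)
    · exact L.isClosed_lattice.preimage (by fun_prop)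
  have hScount : S.Countable := by
    refine ((countable_lattice226 L).union ?_).union ?_
    · exact (countable_lattice226 L).preimage (add_left_injective z)
    · exact (countable_lattice226 L).preimage (add_left_injective w)
  have hconn : IsPreconnected Sᶜ := by
    have h : 1 < Module.rank ℝ ℂ := by
      rw [Complex.rank_real_complex]; norm_num
    exact (hScount.isConnected_compl_of_one_lt_rank h).isPreconnected
  have hmemS : ∀ u, u ∈ Sᶜ ↔ u ∉ L.lattice ∧ u + z ∉ L.lattice ∧ u + w ∉ L.lattice := by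
    intro u
    simp only [hS, Set.mem_compl_iff, Set.mem_union, Set.mem_preimage, SetLike.mem_coe, not_or]
    tauto
  have hprod : ∀ u ∈ Sᶜ, (℘[L] (u + z) - ℘[L] (u + w)) * (℘[L] u - ℘[L] w) ^ 2 = 0 := by
    intro u hu
    obtain ⟨hu0, huz, huw⟩ := (hmemS u).mp hu
    have e1 := weierstrassP_add_mul226 L hz hu0 huz
    have e2 := weierstrassP_add_mul226 L hw hu0 huw
    rw [hx, hy] at e1
    linear_combination (1 / 4 : ℂ) * e1 - (1 / 4 : ℂ) * e2
  have han1 : AnalyticOnNhd ℂ (fun u => ℘[L] (u + z) - ℘[L] (u + w)) Sᶜ := by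
    intro u hu
    obtain ⟨hu0, huz, huw⟩ := (hmemS u).mp hu
    have h1 := analyticAt_shift226 L huz
    have h2 := analyticAt_shift226 L huw
    fun_prop
  have han2 : AnalyticOnNhd ℂ (fun u => (℘[L] u - ℘[L] w) ^ 2) Sᶜ := by
    intro u hu
    obtain ⟨hu0, huz, huw⟩ := (hmemS u).mp hu
    have h1 : AnalyticAt ℂ ℘[L] u := L.analyticOnNhd_weierstrassP _ hu0
    fun_prop
  rcases AnalyticOnNhd.eq_zero_or_eq_zero_of_mul_eq_zero han1 han2 hprod hconn with hA | hB
  · -- Case A: `℘ (u + z) = ℘ (u + w)` near `-z`, contradiction with the pole at `u = -z`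
    have hz0 : -z + z ∈ L.lattice := by simp
    have hzL : -z ∉ L.lattice := fun h => hz (by simpa using neg_mem h)
    have hwz : -z + w ∉ L.lattice := fun h => hzw' (by
      have := neg_mem h
      simpa [sub_eq_add_neg, add_comm] using this)
    have hev : (fun u => ℘[L] (u + z)) =ᶠ[𝓝[≠] (-z)] fun u => ℘[L] (u + w) := by
      filter_upwards [eventually_nhdsNE_add_notMem226 L z (-z),
        mem_nhdsWithin_of_mem_nhds (L.isClosed_lattice.isOpen_compl.mem_nhds hzL),
        mem_nhdsWithin_of_mem_nhds (eventually_add_notMem226 L hwz)] with u h1 h2 h3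
      exact sub_eq_zero.mp (hA u ((hmemS u).mpr ⟨h2, h1, h3⟩))
    have h1 := meromorphicOrderAt_congr hev
    rw [meromorphicOrderAt_shift226 L hz0] at h1
    have h2 := (analyticAt_shift226 L hwz).meromorphicOrderAt_nonneg
    rw [← h1] at h2
    exact absurd h2 (by decide)
  · -- Case B: `℘ = ℘ w` near `0`, contradiction with the pole at `0`
    have hz' : (0 : ℂ) + z ∉ L.lattice := by simpa using hz
    have hw' : (0 : ℂ) + w ∉ L.lattice := by simpa using hw
    have hev : ℘[L] =ᶠ[𝓝[≠] (0 : ℂ)] fun _ => ℘[L] w := by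
      filter_upwards [eventually_nhdsNE_add_notMem226 L 0 0,
        mem_nhdsWithin_of_mem_nhds (eventually_add_notMem226 L hz'),
        mem_nhdsWithin_of_mem_nhds (eventually_add_notMem226 L hw')] with u h1 h2 h3
      have := hB u ((hmemS u).mpr ⟨by simpa using h1, h2, h3⟩)
      exact sub_eq_zero.mp ((pow_eq_zero_iff (two_ne_zero)).mp this)
    have h1 := meromorphicOrderAt_congr hev
    rw [L.order_weierstrassP 0 (zero_mem _)] at h1
    have h2 : (0 : WithTop ℤ) ≤ meromorphicOrderAt (fun _ : ℂ => ℘[L] w) 0 :=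
      (analyticAt_const).meromorphicOrderAt_nonneg
    rw [← h1] at h2
    exact absurd h2 (by decide)

end Fermat.Agent.S15.H226
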