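import Fermat.Agent.S15.H226.WpDeriv

/-!
# S15 / MOD-B3 U3 (helper226): the addition theorem for the Weierstrass `℘`-function

Mathlib-only (through `WpDeriv`).  Main results, for `L : PeriodPair`:

* `addRel226_eq_zero` : for `z, w, z + w ∉ Λ`,
  `4 ℘(z+w) (℘ z - ℘ w)² = 4 ℘ z ℘ w (℘ z + ℘ w) - g₂ (℘ z + ℘ w) - 2 g₃ - 2 ℘' z ℘' w`.
* `weierstrassP_add226` : if moreover `℘ z ≠ ℘ w`,
  `℘(z+w) = ((℘' z - ℘' w)/(℘ z - ℘ w))² / 4 - ℘ z - ℘ w`.
-/

set_option autoImplicit false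

open Filter Topology

noncomputable section

namespace Fermat.Agent.S15.H226

open PeriodPair

/-- The addition relation, as a function of `z` for fixed `w`.  It vanishes identically on the
regular locus (`addRel226_eq_zero`). -/
def addRel226 (L : PeriodPair) (w z : ℂ) : ℂ :=
  4 * ℘[L] z * ℘[L] w * (℘[L] z + ℘[L] w) - L.g₂ * (℘[L] z + ℘[L] w) - 2 * L.g₃
    - 2 * ℘'[L] z * ℘'[L] w - 4 * ℘[L] (z + w) * (℘[L] z - ℘[L] w) ^ 2

theorem addRel226_symm (L : PeriodPair) (w z : ℂ) : addRel226 L w z = addRel226 L z w := by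
  simp only [addRel226, add_comm w z]
  ring

theorem addRel226_add_coe (L : PeriodPair) (w z : ℂ) (l : ℂ) (hl : l ∈ L.lattice) :
    addRel226 L w (z + l) = addRel226 L w z := by
  have h1 := L.weierstrassP_add_coe z ⟨l, hl⟩
  have h2 := L.derivWeierstrassP_add_coe z ⟨l, hl⟩
  have h3 := L.weierstrassP_add_coe (z + w) ⟨l, hl⟩
  simp only at h1 h2 h3
  simp only [addRel226, h1, h2, add_right_comm z l w, h3]

theorem addRel226_self (L : PeriodPair) {w : ℂ} (hw : w ∉ L.lattice) : addRel226 L w w = 0 := by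
  have h := L.derivWeierstrassP_sq w hw
  simp only [addRel226]
  linear_combination (-2 : ℂ) * h

theorem meromorphic_shift226 (L : PeriodPair) (w : ℂ) : Meromorphic fun z => ℘[L] (z + w) := by
  intro x
  exact (L.meromorphic_weierstrassP (x + w)).comp_analyticAt (g := fun z => z + w) (by fun_prop)

theorem meromorphic_addRel226 (L : PeriodPair) (w : ℂ) : Meromorphic (addRel226 L w) := by
  have h1 := L.meromorphic_weierstrassP
  have h2 := L.meromorphic_derivWeierstrassP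
  have h3 := meromorphic_shift226 L w
  unfold addRel226
  fun_prop

theorem analyticAt_shift226 (L : PeriodPair) {w z : ℂ} (hzw : z + w ∉ L.lattice) :
    AnalyticAt ℂ (fun y => ℘[L] (y + w)) z := by
  have h : AnalyticAt ℂ ℘[L] (z + w) := L.analyticOnNhd_weierstrassP _ hzw
  exact h.comp_of_eq (g := ℘[L]) (f := fun y => y + w) (by fun_prop) rfl

theorem analyticAt_addRel226 (L : PeriodPair) {w z : ℂ} (hz : z ∉ L.lattice)
    (hzw : z + w ∉ L.lattice) : AnalyticAt ℂ (addRel226 L w) z := by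
  have h1 : AnalyticAt ℂ ℘[L] z := L.analyticOnNhd_weierstrassP _ hz
  have h2 : AnalyticAt ℂ ℘'[L] z := L.analyticOnNhd_derivWeierstrassP _ hz
  have h3 := analyticAt_shift226 L hzw
  unfold addRel226
  fun_prop

/-! ### Local expansions at `0` -/

theorem weierstrassPExcept_zero_zero226 (L : PeriodPair) : ℘[L - (0 : ℂ)] 0 = 0 := by
  simp

/-- The regular part of `℘` at `0` vanishes to second order. -/
theorem exists_sq_factor226 (L : PeriodPair) :
    ∃ e : ℂ → ℂ, AnalyticAt ℂ e 0 ∧ ∀ᶠ z in 𝓝 (0 : ℂ), ℘[L - (0 : ℂ)] z = z ^ 2 * e z := by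
  have han : AnalyticAt ℂ ℘[L - (0 : ℂ)] 0 := L.analyticAt_weierstrassPExcept 0
  have h2 : ((2 : ℕ) : ℕ∞) ≤ analyticOrderAt ℘[L - (0 : ℂ)] 0 := by
    rw [natCast_le_analyticOrderAt_iff_iteratedDeriv_eq_zero han]
    intro i hi
    rw [L.iteratedDeriv_weierstrassPExcept_self]
    interval_cases i
    · simp
    · simp [L.G_eq_zero_of_odd 3 (by decide)]
  obtain ⟨g, hg, hgz⟩ := (natCast_le_analyticOrderAt han).mp h2
  exact ⟨g, hg, by simpa using hgz⟩

theorem weierstrassP_eq_except226 (L : PeriodPair) (z : ℂ) :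
    ℘[L] z = ℘[L - (0 : ℂ)] z + 1 / z ^ 2 := by
  have h1 := L.weierstrassPExcept_def (0 : L.lattice) z
  simp only [ZeroMemClass.coe_zero, sub_zero, ne_eq, OfNat.ofNat_ne_zero, not_false_eq_true,
    zero_pow, div_zero, zero_sub] at h1
  rw [h1]; ring

theorem derivWeierstrassP_eq_except226 (L : PeriodPair) (z : ℂ) :
    ℘'[L] z = ℘'[L - (0 : ℂ)] z - 2 / z ^ 3 := by
  have h2 := L.derivWeierstrassPExcept_def (0 : L.lattice) z
  simp only [ZeroMemClass.coe_zero, sub_zero] at h2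
  rw [h2]; ring

theorem iteratedDeriv_succ_of_hasDerivAt226 {f f' : ℂ → ℂ} {z₀ : ℂ} (n : ℕ)
    (h : ∀ᶠ z in 𝓝 z₀, HasDerivAt f (f' z) z) :
    iteratedDeriv (n + 1) f z₀ = iteratedDeriv n f' z₀ := by
  rw [iteratedDeriv_succ']
  apply Filter.EventuallyEq.iteratedDeriv_eq
  filter_upwards [h] with z hz using hz.deriv

theorem eventually_add_notMem226 (L : PeriodPair) {w z₀ : ℂ} (hw : z₀ + w ∉ L.lattice) :
    ∀ᶠ z in 𝓝 z₀, z + w ∉ L.lattice := by
  have ht : Tendsto (fun y : ℂ => y + w) (𝓝 z₀) (𝓝 (z₀ + w)) :=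
    (continuous_id.add continuous_const).continuousAt
  exact ht.eventually (L.isClosed_lattice.isOpen_compl.mem_nhds hw)

/-- Third-order Taylor expansion of `℘` at a point `w` off the lattice. -/
theorem exists_taylor226 (L : PeriodPair) {w : ℂ} (hw : w ∉ L.lattice) :
    ∃ R : ℂ → ℂ, AnalyticAt ℂ R 0 ∧ ∀ᶠ z in 𝓝 (0 : ℂ),
      ℘[L] (z + w) = ℘[L] w + ℘'[L] w * z + (3 * ℘[L] w ^ 2 - L.g₂ / 4) * z ^ 2
        + 2 * ℘[L] w * ℘'[L] w * z ^ 3 + z ^ 4 * R z := by
  set a := ℘[L] w with ha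
  set b := ℘'[L] w with hb
  have hw0 : (0 : ℂ) + w ∉ L.lattice := by simpa using hw
  have hev := eventually_add_notMem226 L hw0
  -- the successive derivatives
  let f₀ : ℂ → ℂ := fun z => ℘[L] (z + w) -
    (a + b * z + (3 * a ^ 2 - L.g₂ / 4) * z ^ 2 + 2 * a * b * z ^ 3)
  let f₁ : ℂ → ℂ := fun z => ℘'[L] (z + w) -
    (b + 2 * (3 * a ^ 2 - L.g₂ / 4) * z + 6 * a * b * z ^ 2)
  let f₂ : ℂ → ℂ := fun z => (6 * ℘[L] (z + w) ^ 2 - L.g₂ / 2) -
    (2 * (3 * a ^ 2 - L.g₂ / 4) + 12 * a * b * z)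
  let f₃ : ℂ → ℂ := fun z => 12 * ℘[L] (z + w) * ℘'[L] (z + w) - 12 * a * b
  have hP : ∀ z, z + w ∉ L.lattice → HasDerivAt (fun y => ℘[L] (y + w)) (℘'[L] (z + w)) z := by
    intro z hz
    exact (hasDerivAt_weierstrassP226 L hz).comp_add_const z w
  have hP' : ∀ z, z + w ∉ L.lattice →
      HasDerivAt (fun y => ℘'[L] (y + w)) (6 * ℘[L] (z + w) ^ 2 - L.g₂ / 2) z := by
    intro z hz
    have := (hasDerivAt_derivWeierstrassP226 L hz).comp_add_const z w
    rwa [deriv_derivWeierstrassP226 L hz] at this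
  have h01 : ∀ᶠ z in 𝓝 (0 : ℂ), HasDerivAt f₀ (f₁ z) z := by
    filter_upwards [hev] with z hz
    have h1 : HasDerivAt (fun y : ℂ => a + b * y + (3 * a ^ 2 - L.g₂ / 4) * y ^ 2
        + 2 * a * b * y ^ 3) (b + 2 * (3 * a ^ 2 - L.g₂ / 4) * z + 6 * a * b * z ^ 2) z := by
      have hid : HasDerivAt (fun y : ℂ => y) 1 z := hasDerivAt_id z
      have := (((hid.const_mul b).const_add a).fun_add ((hid.fun_pow 2).const_mul
        (3 * a ^ 2 - L.g₂ / 4))).fun_add ((hid.fun_pow 3).const_mul (2 * a * b))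
      refine this.congr_deriv ?_
      push_cast
      ring
    exact (hP z hz).sub h1
  have h12 : ∀ᶠ z in 𝓝 (0 : ℂ), HasDerivAt f₁ (f₂ z) z := by
    filter_upwards [hev] with z hz
    have h1 : HasDerivAt (fun y : ℂ => b + 2 * (3 * a ^ 2 - L.g₂ / 4) * y + 6 * a * b * y ^ 2)
        (2 * (3 * a ^ 2 - L.g₂ / 4) + 12 * a * b * z) z := by
      have hid : HasDerivAt (fun y : ℂ => y) 1 z := hasDerivAt_id z
      have := ((hid.const_mul (2 * (3 * a ^ 2 - L.g₂ / 4))).const_add b).fun_add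
        ((hid.fun_pow 2).const_mul (6 * a * b))
      refine this.congr_deriv ?_
      push_cast
      ring
    exact (hP' z hz).sub h1
  have h23 : ∀ᶠ z in 𝓝 (0 : ℂ), HasDerivAt f₂ (f₃ z) z := by
    filter_upwards [hev] with z hz
    have h1 : HasDerivAt (fun y : ℂ => 2 * (3 * a ^ 2 - L.g₂ / 4) + 12 * a * b * y)
        (12 * a * b) z := by
      have hid : HasDerivAt (fun y : ℂ => y) 1 z := hasDerivAt_id z
      have := (hid.const_mul (12 * a * b)).const_add (2 * (3 * a ^ 2 - L.g₂ / 4))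
      simpa using this
    have h2 : HasDerivAt (fun y : ℂ => 6 * ℘[L] (y + w) ^ 2 - L.g₂ / 2)
        (12 * ℘[L] (z + w) * ℘'[L] (z + w)) z := by
      have := (((hP z hz).fun_pow 2).const_mul 6).sub_const (L.g₂ / 2)
      refine this.congr_deriv ?_
      push_cast
      ring
    exact h2.sub h1
  have han : AnalyticAt ℂ f₀ 0 := by
    have h3 := analyticAt_shift226 L hw0
    show AnalyticAt ℂ (fun z => ℘[L] (z + w) -
      (a + b * z + (3 * a ^ 2 - L.g₂ / 4) * z ^ 2 + 2 * a * b * z ^ 3)) 0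
    fun_prop
  have h4 : ((4 : ℕ) : ℕ∞) ≤ analyticOrderAt f₀ 0 := by
    rw [natCast_le_analyticOrderAt_iff_iteratedDeriv_eq_zero han]
    intro i hi
    interval_cases i
    · simp [f₀, ha]
    · rw [iteratedDeriv_succ_of_hasDerivAt226 0 h01]
      simp [f₁, hb]
    · rw [iteratedDeriv_succ_of_hasDerivAt226 1 h01, iteratedDeriv_succ_of_hasDerivAt226 0 h12]
      simp [f₂, ha]; ring
    · rw [iteratedDeriv_succ_of_hasDerivAt226 2 h01, iteratedDeriv_succ_of_hasDerivAt226 1 h12,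
        iteratedDeriv_succ_of_hasDerivAt226 0 h23]
      simp [f₃, ha, hb]
  obtain ⟨g, hg, hgz⟩ := (natCast_le_analyticOrderAt han).mp h4
  refine ⟨g, hg, ?_⟩
  filter_upwards [hgz] with z hz
  simp only [f₀, sub_zero, smul_eq_mul] at hz
  linear_combination hz

/-- The addition relation has a removable singularity at `0`. -/
theorem exists_analytic_at_zero226 (L : PeriodPair) {w : ℂ} (hw : w ∉ L.lattice) :
    ∃ H : ℂ → ℂ, AnalyticAt ℂ H 0 ∧ addRel226 L w =ᶠ[𝓝[≠] (0 : ℂ)] H := by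
  obtain ⟨e, he, hez⟩ := exists_sq_factor226 L
  obtain ⟨R, hR, hRz⟩ := exists_taylor226 L hw
  have hp : AnalyticAt ℂ ℘'[L - (0 : ℂ)] 0 := L.analyticAt_derivWeierstrassPExcept 0
  set a := ℘[L] w with ha
  set b := ℘'[L] w with hb
  refine ⟨fun z => 8 * a * e z + 4 * a * z ^ 4 * e z ^ 2 + (4 * a ^ 2 - L.g₂) * z ^ 2 * e z
      - (L.g₂ * a + 2 * L.g₃) - 2 * b * ℘'[L - (0 : ℂ)] z + 8 * a * (3 * a ^ 2 - L.g₂ / 4)
      + 8 * a * (2 * a * b) * z
      - 4 * (a + b * z + (3 * a ^ 2 - L.g₂ / 4) * z ^ 2 + 2 * a * b * z ^ 3)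
          * (a ^ 2 + 2 * (1 - a * z ^ 2) * e z + z ^ 4 * e z ^ 2)
      - 4 * R z * (1 - 2 * a * z ^ 2 + z ^ 4 * (a ^ 2 + 2 * (1 - a * z ^ 2) * e z
          + z ^ 4 * e z ^ 2)), by fun_prop, ?_⟩
  filter_upwards [hez.filter_mono nhdsWithin_le_nhds, hRz.filter_mono nhdsWithin_le_nhds,
    self_mem_nhdsWithin] with z h1 h2 hz0
  have hz0' : z ≠ 0 := hz0
  have e1 : ℘[L] z = z ^ 2 * e z + 1 / z ^ 2 := by
    rw [weierstrassP_eq_except226, h1]
  have e2 : ℘'[L] z = ℘'[L - (0 : ℂ)] z - 2 / z ^ 3 := derivWeierstrassP_eq_except226 L z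
  simp only [addRel226, e1, e2, h2, ← ha, ← hb]
  field_simp
  ring

theorem weierstrassP_eq_of_add_mem226 (L : PeriodPair) {w z₀ : ℂ} (hz₀ : z₀ + w ∈ L.lattice) :
    ℘[L] z₀ = ℘[L] w := by
  have h := L.weierstrassP_add_coe (-w) ⟨z₀ + w, hz₀⟩
  simp only [neg_add_cancel_comm_assoc, weierstrassP_neg] at h
  exact h

/-- The addition relation has a removable singularity at the points of `-w + Λ`. -/
theorem exists_analytic_at_pole226 (L : PeriodPair) {w z₀ : ℂ} (hw : w ∉ L.lattice)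
    (hz₀ : z₀ + w ∈ L.lattice) :
    ∃ H : ℂ → ℂ, AnalyticAt ℂ H z₀ ∧ addRel226 L w =ᶠ[𝓝[≠] z₀] H := by
  have hz₀' : z₀ ∉ L.lattice := fun h => hw (by simpa using sub_mem hz₀ h)
  have hx : ℘[L] z₀ = ℘[L] w := weierstrassP_eq_of_add_mem226 L hz₀
  set a := ℘[L] w with ha
  set b := ℘'[L] w with hb
  have h1 : AnalyticAt ℂ ℘[L] z₀ := L.analyticOnNhd_weierstrassP _ hz₀'
  have h2 : AnalyticAt ℂ ℘'[L] z₀ := L.analyticOnNhd_derivWeierstrassP _ hz₀'
  -- `℘ z - a = (z - z₀) u z`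
  have hf : AnalyticAt ℂ (fun z => ℘[L] z - a) z₀ := by fun_prop
  have hord : ((1 : ℕ) : ℕ∞) ≤ analyticOrderAt (fun z => ℘[L] z - a) z₀ := by
    rw [natCast_le_analyticOrderAt_iff_iteratedDeriv_eq_zero hf]
    intro i hi
    interval_cases i
    simp [hx]
  obtain ⟨u, hu, huz⟩ := (natCast_le_analyticOrderAt hf).mp hord
  -- the regular part of `℘ (z + w)`
  have h3 : AnalyticAt ℂ (fun z => ℘[L - (z₀ + w)] (z + w)) z₀ := by
    have h : AnalyticAt ℂ ℘[L - (z₀ + w)] (z₀ + w) := L.analyticAt_weierstrassPExcept (z₀ + w)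
    exact h.comp_of_eq (g := ℘[L - (z₀ + w)]) (f := fun y => y + w) (by fun_prop) rfl
  refine ⟨fun z => 4 * ℘[L] z * a * (℘[L] z + a) - L.g₂ * (℘[L] z + a) - 2 * L.g₃
      - 2 * ℘'[L] z * b
      - 4 * ((z - z₀) ^ 2 * (℘[L - (z₀ + w)] (z + w) - 1 / (z₀ + w) ^ 2) + 1) * u z ^ 2,
    by fun_prop, ?_⟩
  filter_upwards [huz.filter_mono nhdsWithin_le_nhds, self_mem_nhdsWithin] with z hz hz0
  have hz0' : z - z₀ ≠ 0 := sub_ne_zero.mpr hz0
  have e3 : ℘[L] (z + w) = ℘[L - (z₀ + w)] (z + w) + (1 / (z - z₀) ^ 2 - 1 / (z₀ + w) ^ 2) := by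
    have := L.weierstrassPExcept_add ⟨z₀ + w, hz₀⟩ (z + w)
    simp only at this
    rw [← this]
    congr 3
    ring
  simp only [pow_one, smul_eq_mul] at hz
  simp only [addRel226, ← ha, ← hb, e3, hz]
  field_simp
  ring

/-- All orders of the addition relation are nonnegative. -/
theorem meromorphicOrderAt_addRel226_nonneg (L : PeriodPair) {w : ℂ} (hw : w ∉ L.lattice)
    (z₀ : ℂ) : 0 ≤ meromorphicOrderAt (addRel226 L w) z₀ := by
  by_cases h0 : z₀ ∈ L.lattice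
  · -- reduce to `0` by periodicity
    have hper : addRel226 L w ∘ (· - z₀) = addRel226 L w := by
      funext z
      have := addRel226_add_coe L w (z - z₀) z₀ h0
      simpa using this.symm
    have h := meromorphicOrderAt_comp_sub_const_eq_meromorphicOrderAt
      (f := addRel226 L w) (c := z₀) (x := z₀)
    rw [hper, sub_self] at h
    rw [h]
    obtain ⟨H, hH, hHz⟩ := exists_analytic_at_zero226 L hw
    exact ((meromorphic_addRel226 L w) 0).meromorphicOrderAt_nonneg_iff.mpr ⟨H, hH, hHz⟩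
  · by_cases h1 : z₀ + w ∈ L.lattice
    · obtain ⟨H, hH, hHz⟩ := exists_analytic_at_pole226 L hw h1
      exact ((meromorphic_addRel226 L w) z₀).meromorphicOrderAt_nonneg_iff.mpr ⟨H, hH, hHz⟩
    · exact (analyticAt_addRel226 L h0 h1).meromorphicOrderAt_nonneg

/-- The addition relation is constant on the regular locus. -/
theorem exists_addRel226_const (L : PeriodPair) {w : ℂ} (hw : w ∉ L.lattice) :
    ∃ c, ∀ z, z ∉ L.lattice → z + w ∉ L.lattice → addRel226 L w z = c := by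
  obtain ⟨c, hc⟩ := elliptic_const226 L (meromorphic_addRel226 L w)
    (meromorphicOrderAt_addRel226_nonneg L hw) (fun z l hl => addRel226_add_coe L w z l hl)
  exact ⟨c, fun z hz hzw => hc z (analyticAt_addRel226 L hz hzw).continuousAt⟩

theorem addRel226_eq_zero_of_two (L : PeriodPair) {w z : ℂ} (hw : w ∉ L.lattice)
    (h2w : w + w ∉ L.lattice) (hz : z ∉ L.lattice) (hzw : z + w ∉ L.lattice) :
    addRel226 L w z = 0 := by
  obtain ⟨c, hc⟩ := exists_addRel226_const L hw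
  rw [hc z hz hzw, ← hc w hw h2w]
  exact addRel226_self L hw

/-- **The addition relation** for `℘`: for `z, w, z + w ∉ Λ`,
`4 ℘(z+w) (℘ z - ℘ w)² = 4 ℘ z ℘ w (℘ z + ℘ w) - g₂ (℘ z + ℘ w) - 2 g₃ - 2 ℘' z ℘' w`. -/
theorem addRel226_eq_zero (L : PeriodPair) {w z : ℂ} (hw : w ∉ L.lattice)
    (hz : z ∉ L.lattice) (hzw : z + w ∉ L.lattice) : addRel226 L w z = 0 := by
  by_cases h2w : w + w ∈ L.lattice
  · -- `w` is a half-period: use the symmetry and the point `w / 2`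
    obtain ⟨c, hc⟩ := exists_addRel226_const L hw
    have hv : w / 2 ∉ L.lattice := fun h => hw (by simpa using add_mem h h)
    have hvv : w / 2 + w / 2 ∉ L.lattice := by simpa using hw
    have hvw : w / 2 + w ∉ L.lattice := by
      intro h
      apply hv
      have := sub_mem h2w h
      have e : w + w - (w / 2 + w) = w / 2 := by ring
      rwa [e] at this
    have hwv : w + w / 2 ∉ L.lattice := by rwa [add_comm]
    rw [hc z hz hzw, ← hc (w / 2) hv hvw, addRel226_symm]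
    exact addRel226_eq_zero_of_two L hv hvv hw hwv
  · exact addRel226_eq_zero_of_two L hw h2w hz hzw

/-- The same relation, spelled out. -/
theorem weierstrassP_add_mul226 (L : PeriodPair) {w z : ℂ} (hw : w ∉ L.lattice)
    (hz : z ∉ L.lattice) (hzw : z + w ∉ L.lattice) :
    4 * ℘[L] (z + w) * (℘[L] z - ℘[L] w) ^ 2 =
      (℘'[L] z - ℘'[L] w) ^ 2 - 4 * (℘[L] z + ℘[L] w) * (℘[L] z - ℘[L] w) ^ 2 := by
  have h := addRel226_eq_zero L hw hz hzw
  have h1 := L.derivWeierstrassP_sq z hz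
  have h2 := L.derivWeierstrassP_sq w hw
  simp only [addRel226] at h
  linear_combination -h - h1 - h2

/-- **Addition theorem** for `℘`. -/
theorem weierstrassP_add226 (L : PeriodPair) {w z : ℂ} (hw : w ∉ L.lattice)
    (hz : z ∉ L.lattice) (hzw : z + w ∉ L.lattice) (hne : ℘[L] z ≠ ℘[L] w) :
    ℘[L] (z + w) =
      ((℘'[L] z - ℘'[L] w) / (℘[L] z - ℘[L] w)) ^ 2 / 4 - ℘[L] z - ℘[L] w := by
  have h := weierstrassP_add_mul226 L hw hz hzw
  have hne' : ℘[L] z - ℘[L] w ≠ 0 := sub_ne_zero.mpr hne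
  field_simp
  linear_combination h

/-- Pure algebra behind `derivWeierstrassP_add226`. -/
theorem chord_algebra226 {x y a b g2 g3 s s' : ℂ} (hD : x - a ≠ 0)
    (h1 : y ^ 2 = 4 * x ^ 3 - g2 * x - g3) (h2 : b ^ 2 = 4 * a ^ 3 - g2 * a - g3)
    (hs : s = ((y - b) / (x - a)) ^ 2 / 4 - x - a)
    (key : s' = 2 * ((y - b) / (x - a)) *
      (((6 * x ^ 2 - g2 / 2) * (x - a) - (y - b) * y) / (x - a) ^ 2) / 4 - y) :
    s' = -((y - b) / (x - a) * (s - x) + y) := by
  have hpoly : 2 * (6 * x ^ 2 - g2 / 2) * (x - a) - (y ^ 2 - b ^ 2)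
      - (8 * x + 4 * a) * (x - a) ^ 2 = 0 := by
    linear_combination -h1 + h2
  have e : (2 * ((y - b) / (x - a)) *
      (((6 * x ^ 2 - g2 / 2) * (x - a) - (y - b) * y) / (x - a) ^ 2) / 4 - y)
      - -((y - b) / (x - a) * ((((y - b) / (x - a)) ^ 2 / 4 - x - a) - x) + y)
      = ((y - b) / (x - a) / (4 * (x - a) ^ 2)) *
        (2 * (6 * x ^ 2 - g2 / 2) * (x - a) - (y ^ 2 - b ^ 2)
          - (8 * x + 4 * a) * (x - a) ^ 2) := by
    field_simp
    ring
  rw [hpoly, mul_zero, sub_eq_zero] at e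
  rw [key, hs]
  exact e

/-- **Addition theorem** for `℘'`: the third point of the chord. -/
theorem derivWeierstrassP_add226 (L : PeriodPair) {w z : ℂ} (hw : w ∉ L.lattice)
    (hz : z ∉ L.lattice) (hzw : z + w ∉ L.lattice) (hne : ℘[L] z ≠ ℘[L] w) :
    ℘'[L] (z + w) =
      -((℘'[L] z - ℘'[L] w) / (℘[L] z - ℘[L] w) * (℘[L] (z + w) - ℘[L] z) + ℘'[L] z) := by
  have hne' : ℘[L] z - ℘[L] w ≠ 0 := sub_ne_zero.mpr hne
  -- the two sides of the addition theorem agree near `z`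
  have hcont : ContinuousAt ℘[L] z := (L.analyticOnNhd_weierstrassP z hz).continuousAt
  have hev : (fun y => ℘[L] (y + w)) =ᶠ[𝓝 z]
      fun y => ((℘'[L] y - ℘'[L] w) / (℘[L] y - ℘[L] w)) ^ 2 / 4 - ℘[L] y - ℘[L] w := by
    filter_upwards [L.isClosed_lattice.isOpen_compl.mem_nhds hz, eventually_add_notMem226 L hzw,
      hcont.eventually_ne hne] with y hy hyw hyne
    exact weierstrassP_add226 L hw hy hyw hyne
  have hP := hasDerivAt_weierstrassP226 L hz
  have hP' := hasDerivAt_derivWeierstrassP226 L hz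
  rw [deriv_derivWeierstrassP226 L hz] at hP'
  have hl : HasDerivAt (fun y => (℘'[L] y - ℘'[L] w) / (℘[L] y - ℘[L] w))
      (((6 * ℘[L] z ^ 2 - L.g₂ / 2) * (℘[L] z - ℘[L] w) - (℘'[L] z - ℘'[L] w) * ℘'[L] z)
        / (℘[L] z - ℘[L] w) ^ 2) z :=
    (hP'.sub_const (℘'[L] w)).fun_div (hP.sub_const (℘[L] w)) hne'
  have hR : HasDerivAt
      (fun y => ((℘'[L] y - ℘'[L] w) / (℘[L] y - ℘[L] w)) ^ 2 / 4 - ℘[L] y - ℘[L] w)
      (2 * ((℘'[L] z - ℘'[L] w) / (℘[L] z - ℘[L] w)) *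
        (((6 * ℘[L] z ^ 2 - L.g₂ / 2) * (℘[L] z - ℘[L] w) - (℘'[L] z - ℘'[L] w) * ℘'[L] z)
        / (℘[L] z - ℘[L] w) ^ 2) / 4 - ℘'[L] z) z := by
    have := (((hl.fun_pow 2).div_const 4).fun_sub hP).sub_const (℘[L] w)
    refine this.congr_deriv ?_
    push_cast
    ring
  have hLd : HasDerivAt (fun y => ℘[L] (y + w)) (℘'[L] (z + w)) z :=
    (hasDerivAt_weierstrassP226 L hzw).comp_add_const z w
  have key := (hLd.congr_of_eventuallyEq hev.symm).unique hR
  exact chord_algebra226 hne' (L.derivWeierstrassP_sq z hz) (L.derivWeierstrassP_sq w hw)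
    (weierstrassP_add226 L hw hz hzw hne) key

end Fermat.Agent.S15.H226
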