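import Mathlib

/-!
# S15 / MOD-B3 (helper226): derivative of `℘'` and the elliptic Liouville principle

Mathlib-only.  Main results:

* `countable_lattice226`, `isPreconnected_compl_lattice226`
* `deriv_derivWeierstrassP226` : `deriv ℘' z = 6 ℘ z ^ 2 - g₂ / 2` off the lattice
* `elliptic_const226` : a meromorphic `Λ`-periodic function all of whose orders are `≥ 0`
  is constant on its continuity points.
-/

set_option autoImplicit false

open Filter Topology

noncomputable section

namespace Fermat.Agent.S15.H226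

open PeriodPair

theorem countable_lattice226 (L : PeriodPair) : (L.lattice : Set ℂ).Countable := by
  have : Countable L.lattice := L.latticeEquivProd.toEquiv.countable_iff.mpr inferInstance
  exact Set.countable_coe_iff.mp this

theorem isPreconnected_compl_lattice226 (L : PeriodPair) :
    IsPreconnected ((L.lattice : Set ℂ)ᶜ) := by
  have h : 1 < Module.rank ℝ ℂ := by
    rw [Complex.rank_real_complex]; norm_num
  exact ((countable_lattice226 L).isConnected_compl_of_one_lt_rank h).isPreconnected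

theorem hasDerivAt_weierstrassP226 (L : PeriodPair) {z : ℂ} (hz : z ∉ L.lattice) :
    HasDerivAt ℘[L] (℘'[L] z) z := by
  have h := (L.analyticOnNhd_weierstrassP z hz).differentiableAt.hasDerivAt
  rwa [L.deriv_weierstrassP] at h

theorem hasDerivAt_derivWeierstrassP226 (L : PeriodPair) {z : ℂ} (hz : z ∉ L.lattice) :
    HasDerivAt ℘'[L] (deriv ℘'[L] z) z :=
  (L.analyticOnNhd_derivWeierstrassP z hz).differentiableAt.hasDerivAt

/-- `℘'` does not vanish identically off the lattice. -/
theorem not_forall_derivWeierstrassP_eq_zero226 (L : PeriodPair) :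
    ¬ ∀ z ∈ (L.lattice : Set ℂ)ᶜ, ℘'[L] z = 0 := by
  intro h
  have hopen : IsOpen ((L.lattice : Set ℂ)ᶜ) := L.isClosed_lattice.isOpen_compl
  have hconst : ∀ z ∈ (L.lattice : Set ℂ)ᶜ, ℘[L] z = ℘[L] (L.ω₁ / 2) := by
    intro z hz
    refine hopen.is_const_of_deriv_eq_zero (isPreconnected_compl_lattice226 L)
      L.differentiableOn_weierstrassP ?_ hz L.ω₁_div_two_notMem_lattice
    intro x hx
    rw [L.deriv_weierstrassP]
    exact h x hx
  have hev : ℘[L] =ᶠ[𝓝[≠] (0 : ℂ)] fun _ => ℘[L] (L.ω₁ / 2) := by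
    filter_upwards [mem_nhdsWithin_of_mem_nhds (L.compl_lattice_sdiff_singleton_mem_nhds 0),
      self_mem_nhdsWithin] with z hz hz0
    refine hconst z fun hzL => hz ⟨hzL, hz0⟩
  have h1 : meromorphicOrderAt ℘[L] 0 = meromorphicOrderAt (fun _ : ℂ => ℘[L] (L.ω₁ / 2)) 0 :=
    meromorphicOrderAt_congr hev
  have h2 : (0 : WithTop ℤ) ≤ meromorphicOrderAt (fun _ : ℂ => ℘[L] (L.ω₁ / 2)) 0 :=
    (analyticAt_const).meromorphicOrderAt_nonneg
  rw [← h1, L.order_weierstrassP 0 (zero_mem _)] at h2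
  exact absurd h2 (by decide)

/-- `℘'' = 6 ℘² - g₂ / 2` off the lattice. -/
theorem deriv_derivWeierstrassP226 (L : PeriodPair) {z : ℂ} (hz : z ∉ L.lattice) :
    deriv ℘'[L] z = 6 * ℘[L] z ^ 2 - L.g₂ / 2 := by
  have hopen : IsOpen ((L.lattice : Set ℂ)ᶜ) := L.isClosed_lattice.isOpen_compl
  -- the product relation
  have hprod : ∀ x ∈ (L.lattice : Set ℂ)ᶜ,
      ℘'[L] x * (deriv ℘'[L] x - (6 * ℘[L] x ^ 2 - L.g₂ / 2)) = 0 := by
    intro x hx
    have hP := hasDerivAt_weierstrassP226 L hx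
    have hP' := hasDerivAt_derivWeierstrassP226 L hx
    have hL : HasDerivAt (fun y => ℘'[L] y ^ 2) (2 * ℘'[L] x * deriv ℘'[L] x) x := by
      simpa using hP'.fun_pow 2
    have hR : HasDerivAt (fun y => 4 * ℘[L] y ^ 3 - L.g₂ * ℘[L] y - L.g₃)
        (4 * (3 * ℘[L] x ^ 2 * ℘'[L] x) - L.g₂ * ℘'[L] x) x := by
      have := (((hP.fun_pow 3).const_mul 4).sub (hP.const_mul L.g₂)).sub_const L.g₃
      simpa using this
    have heq : (fun y => ℘'[L] y ^ 2) =ᶠ[𝓝 x]
        fun y => 4 * ℘[L] y ^ 3 - L.g₂ * ℘[L] y - L.g₃ := by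
      filter_upwards [hopen.mem_nhds hx] with y hy
      exact L.derivWeierstrassP_sq y hy
    have := (hL.congr_of_eventuallyEq heq.symm).unique hR
    linear_combination (1 / 2 : ℂ) * this
  have hana1 : AnalyticOnNhd ℂ ℘'[L] (L.lattice : Set ℂ)ᶜ := L.analyticOnNhd_derivWeierstrassP
  have hana2 : AnalyticOnNhd ℂ (fun x => deriv ℘'[L] x - (6 * ℘[L] x ^ 2 - L.g₂ / 2))
      (L.lattice : Set ℂ)ᶜ := by
    intro x hx
    have h1 : AnalyticAt ℂ (deriv ℘'[L]) x := (L.analyticOnNhd_derivWeierstrassP x hx).deriv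
    have h2 : AnalyticAt ℂ ℘[L] x := L.analyticOnNhd_weierstrassP x hx
    fun_prop
  rcases AnalyticOnNhd.eq_zero_or_eq_zero_of_mul_eq_zero hana1 hana2 hprod
    (isPreconnected_compl_lattice226 L) with h | h
  · exact absurd h (not_forall_derivWeierstrassP_eq_zero226 L)
  · exact sub_eq_zero.mp (h z hz)

/-- Two functions continuous at `z` that agree on a punctured neighbourhood agree at `z`. -/
theorem eq_of_eventuallyEq_nhdsNE226 {f g : ℂ → ℂ} {z : ℂ} (hf : ContinuousAt f z)
    (hg : ContinuousAt g z) (h : f =ᶠ[𝓝[≠] z] g) : f z = g z := by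
  have h1 : Tendsto f (𝓝[≠] z) (𝓝 (f z)) := hf.tendsto.mono_left nhdsWithin_le_nhds
  have h2 : Tendsto g (𝓝[≠] z) (𝓝 (g z)) := hg.tendsto.mono_left nhdsWithin_le_nhds
  exact tendsto_nhds_unique (h1.congr' h) h2

/-- Translation of a punctured-neighbourhood equality. -/
theorem eventuallyEq_nhdsNE_comp_add226 {f g : ℂ → ℂ} {z l : ℂ} (h : f =ᶠ[𝓝[≠] (z + l)] g) :
    (fun y => f (y + l)) =ᶠ[𝓝[≠] z] fun y => g (y + l) := by
  rw [Filter.EventuallyEq, eventually_nhdsWithin_iff] at h ⊢
  have ht : Tendsto (fun y : ℂ => y + l) (𝓝 z) (𝓝 (z + l)) :=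
    (continuous_id.add continuous_const).continuousAt
  filter_upwards [ht.eventually h] with y hy hyz
  exact hy (by simpa using hyz)

/-- **Elliptic Liouville principle.**  A meromorphic function on `ℂ`, periodic with respect to
the lattice of `L`, all of whose orders are nonnegative, is constant on its continuity points. -/
theorem elliptic_const226 (L : PeriodPair) {f : ℂ → ℂ} (hf : Meromorphic f)
    (hord : ∀ z, 0 ≤ meromorphicOrderAt f z)
    (hper : ∀ z, ∀ l ∈ L.lattice, f (z + l) = f z) :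
    ∃ c, ∀ z, ContinuousAt f z → f z = c := by
  have hfU : MeromorphicOn f Set.univ := fun x _ => hf x
  set g := toMeromorphicNFOn f Set.univ with hg
  have hgNF : MeromorphicNFOn g Set.univ := meromorphicNFOn_toMeromorphicNFOn f Set.univ
  have hg_eq : ∀ x, g =ᶠ[𝓝[≠] x] f := fun x =>
    hfU.toMeromorphicNFOn_eq_self_on_nhdsNE (Set.mem_univ x)
  have hg_an : ∀ x, AnalyticAt ℂ g x := by
    intro x
    refine (hgNF (Set.mem_univ x)).meromorphicOrderAt_nonneg_iff_analyticAt.mp ?_
    rw [meromorphicOrderAt_congr (hg_eq x)]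
    exact hord x
  have hg_diff : Differentiable ℂ g := fun x => (hg_an x).differentiableAt
  have hg_per : ∀ z w, w ∈ L.lattice → g (z + w) = g z := by
    intro z w hw
    have h1 : (fun y => g (y + w)) =ᶠ[𝓝[≠] z] fun y => f (y + w) :=
      eventuallyEq_nhdsNE_comp_add226 (hg_eq (z + w))
    have h2 : (fun y => f (y + w)) =ᶠ[𝓝[≠] z] g := by
      refine Filter.EventuallyEq.trans ?_ (hg_eq z).symm
      exact Filter.Eventually.of_forall fun y => hper y w hw
    have hc : ContinuousAt (fun y => g (y + w)) z :=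
      (hg_diff.continuous.comp (continuous_id.add continuous_const)).continuousAt
    exact eq_of_eventuallyEq_nhdsNE226 hc hg_diff.continuous.continuousAt (h1.trans h2)
  have hbdd : Bornology.IsBounded (Set.range g) :=
    (IsZLattice.isCompact_range_of_periodic L.lattice g hg_diff.continuous hg_per).isBounded
  refine ⟨g 0, fun z hz => ?_⟩
  have h1 : f z = g z :=
    eq_of_eventuallyEq_nhdsNE226 hz hg_diff.continuous.continuousAt (hg_eq z).symm
  rw [h1]
  exact hg_diff.apply_eq_apply_of_bounded hbdd z 0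

end Fermat.Agent.S15.H226
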